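/-
Team KUMMER, Case II-B: basic facts about `π = ζ - 1` in `𝓞 K`, `K = ℚ(ζ_p)` (owner: helper61).
-/
import Mathlib
import Fermat.Agent.Kummer.Defs

set_option autoImplicit false

open NumberField Polynomial Finset

namespace Fermat.Agent.Kummer.CaseIIB

section

variable {p : ℕ} [hp : Fact p.Prime] {K : Type*} [Field K] [NumberField K]
  [hK : IsCyclotomicExtension {p} ℚ K] {ζ : K} (hζ : IsPrimitiveRoot ζ p)

/-- L1: `π = ζ - 1` is prime. -/
theorem pi_prime : Prime (hζ.toInteger - 1) := hζ.zeta_sub_one_prime'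

/-- L2: `π ^ (p - 1)` is associated to `p`. -/
theorem assoc_pi_pow : Associated ((hζ.toInteger - 1) ^ (p - 1)) (p : 𝓞 K) :=
  IsCyclotomicExtension.Rat.associated_zeta_sub_one_pow_prime p hζ

/-- `π ∣ p`. -/
theorem pi_dvd_p : (hζ.toInteger - 1) ∣ (p : 𝓞 K) := hζ.toInteger_sub_one_dvd_prime'

omit hp [NumberField K] hK in
theorem natCast_dvd_intCast {n : ℤ} (h : (p : ℤ) ∣ n) : (p : 𝓞 K) ∣ (n : 𝓞 K) := by
  have := Int.cast_dvd_cast (α := 𝓞 K) _ _ h
  simpa using this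

/-- L3: `π` divides a rational integer `n` iff `p ∣ n`. -/
theorem pi_dvd_intCast_iff (n : ℤ) : (hζ.toInteger - 1) ∣ (n : 𝓞 K) ↔ (p : ℤ) ∣ n := by
  constructor
  · intro h
    by_contra hn
    have hcop : IsCoprime (p : ℤ) n :=
      (Nat.prime_iff_prime_int.mp hp.out).coprime_iff_not_dvd.mpr hn
    obtain ⟨a, b, hab⟩ := hcop
    have h1 : (hζ.toInteger - 1) ∣ ((a * p + b * n : ℤ) : 𝓞 K) := by
      push_cast
      exact dvd_add (Dvd.dvd.mul_left (pi_dvd_p hζ) _) (Dvd.dvd.mul_left h _)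
    rw [hab] at h1
    exact (pi_prime hζ).not_isUnit (isUnit_of_dvd_one (by simpa using h1))
  · intro h
    exact dvd_trans (pi_dvd_p hζ) (natCast_dvd_intCast h)

/-- L4: `1 + ζ` is a unit (`p` odd). -/
theorem isUnit_one_add_zeta (hp2 : p ≠ 2) : IsUnit (1 + hζ.toInteger) := by
  have h := hζ.toInteger_isPrimitiveRoot.geom_sum_isUnit hp.out.two_le (j := 2)
    (Nat.coprime_two_left.mpr (hp.out.odd_of_ne_two hp2))
  simpa [Finset.sum_range_succ] using h

/-- Every element of the ring of integers is a polynomial in `ζ`. -/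
theorem adjoin_toInteger_eq_top :
    Algebra.adjoin ℤ {hζ.toInteger} = (⊤ : Subalgebra ℤ (𝓞 K)) := by
  have h := hζ.integralPowerBasis.adjoin_gen_eq_top
  rwa [hζ.integralPowerBasis_gen] at h

/-- Every element of `𝓞 K` is congruent to a rational integer modulo `π = ζ - 1`. -/
theorem exists_int_sub_dvd (x : 𝓞 K) : ∃ n : ℤ, (hζ.toInteger - 1) ∣ x - (n : 𝓞 K) := by
  have hx : x ∈ Algebra.adjoin ℤ {hζ.toInteger} := by
    rw [adjoin_toInteger_eq_top hζ]; exact Algebra.mem_top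
  induction hx using Algebra.adjoin_induction with
  | mem y hy =>
    rw [Set.mem_singleton_iff] at hy
    subst hy
    exact ⟨1, by simp⟩
  | algebraMap r => exact ⟨r, by simp⟩
  | add y z _ _ hy hz =>
    obtain ⟨a, ha⟩ := hy
    obtain ⟨b, hb⟩ := hz
    refine ⟨a + b, ?_⟩
    have : y + z - ((a + b : ℤ) : 𝓞 K) = (y - a) + (z - b) := by push_cast; ring
    rw [this]
    exact dvd_add ha hb
  | mul y z _ _ hy hz =>
    obtain ⟨a, ha⟩ := hy
    obtain ⟨b, hb⟩ := hz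
    refine ⟨a * b, ?_⟩
    have : y * z - ((a * b : ℤ) : 𝓞 K) = (y - a) * z + a * (z - b) := by push_cast; ring
    rw [this]
    exact dvd_add (Dvd.dvd.mul_right ha _) (Dvd.dvd.mul_left hb _)

/-- L5: the `p`-th power of every element of `𝓞 K` is congruent to a rational integer
modulo `p`. -/
theorem exists_int_pow_sub (x : 𝓞 K) : ∃ n : ℤ, (p : 𝓞 K) ∣ x ^ p - (n : 𝓞 K) := by
  have hζ := IsCyclotomicExtension.zeta_spec p ℚ K
  have hx : x ∈ Algebra.adjoin ℤ {hζ.toInteger} := by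
    rw [adjoin_toInteger_eq_top hζ]; exact Algebra.mem_top
  induction hx using Algebra.adjoin_induction with
  | mem y hy =>
    rw [Set.mem_singleton_iff] at hy
    subst hy
    refine ⟨1, ?_⟩
    have : hζ.toInteger ^ p = 1 := hζ.toInteger_isPrimitiveRoot.pow_eq_one
    simp [this]
  | algebraMap r => exact ⟨r ^ p, by simp⟩
  | add y z _ _ hy hz =>
    obtain ⟨a, ha⟩ := hy
    obtain ⟨b, hb⟩ := hz
    obtain ⟨r, hr⟩ := exists_add_pow_prime_eq hp.out y z
    refine ⟨a + b, ?_⟩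
    have : (y + z) ^ p - ((a + b : ℤ) : 𝓞 K)
        = (y ^ p - a) + (z ^ p - b) + (p : 𝓞 K) * (y * z * r) := by
      rw [hr]; push_cast; ring
    rw [this]
    exact dvd_add (dvd_add ha hb) (dvd_mul_right _ _)
  | mul y z _ _ hy hz =>
    obtain ⟨a, ha⟩ := hy
    obtain ⟨b, hb⟩ := hz
    refine ⟨a * b, ?_⟩
    have : (y * z) ^ p - ((a * b : ℤ) : 𝓞 K) = (y ^ p - a) * z ^ p + a * (z ^ p - b) := by
      push_cast; ring
    rw [this]
    exact dvd_add (Dvd.dvd.mul_right ha _) (Dvd.dvd.mul_left hb _)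

/-- L6: the residue ring `𝓞 K ⧸ (π)` has `p` elements (`p` odd). -/
theorem card_quot (hp2 : p ≠ 2) : Nat.card (𝓞 K ⧸ Ideal.span {hζ.toInteger - 1}) = p := by
  rw [hζ.card_quotient_toInteger_sub_one, hζ.norm_toInteger_sub_one_of_prime_ne_two' hp2]
  simp

/-- Root selection (replaces the pigeonhole argument): if `π ∣ x + y` and `π ∤ y`, then some
`p`-th root of unity `η` has `π ^ 2 ∣ x + η y`. -/
theorem exists_root_sq_dvd {x y : 𝓞 K} (h1 : (hζ.toInteger - 1) ∣ x + y)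
    (hy : ¬ (hζ.toInteger - 1) ∣ y) :
    ∃ η ∈ nthRootsFinset p (1 : 𝓞 K), (hζ.toInteger - 1) ^ 2 ∣ x + η * y := by
  have hω : IsPrimitiveRoot hζ.toInteger p := hζ.toInteger_isPrimitiveRoot
  obtain ⟨t₀, ht₀⟩ := h1
  obtain ⟨n₀, hn₀⟩ := exists_int_sub_dvd hζ t₀
  obtain ⟨ny, hny⟩ := exists_int_sub_dvd hζ y
  have hpny : ¬ (p : ℤ) ∣ ny := by
    intro h
    apply hy
    have := dvd_add hny ((pi_dvd_intCast_iff hζ ny).mpr h)
    simpa using this
  obtain ⟨c, e, hce⟩ := (Nat.prime_iff_prime_int.mp hp.out).coprime_iff_not_dvd.mpr hpny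
  set a₀ : ℤ := -n₀ * e with ha₀
  set a : ℕ := (a₀ % p).toNat with ha_def
  have ha : (a : ℤ) = a₀ % p :=
    Int.toNat_of_nonneg (Int.emod_nonneg _ (by exact_mod_cast hp.out.ne_zero))
  have hpa : (p : ℤ) ∣ n₀ + a * ny := by
    have h3 : (a : ℤ) = a₀ - p * (a₀ / p) := by rw [ha]; exact Int.emod_def a₀ p
    refine ⟨n₀ * c - (a₀ / p) * ny, ?_⟩
    rw [h3, ha₀]
    linear_combination (-n₀) * hce
  refine ⟨hζ.toInteger ^ a, ?_, ?_⟩
  · rw [mem_nthRootsFinset hp.out.pos, ← pow_mul, mul_comm, pow_mul, hω.pow_eq_one, one_pow]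
  · set g := ∑ i ∈ range a, hζ.toInteger ^ i with hg_def
    have hg : hζ.toInteger ^ a - 1 = (hζ.toInteger - 1) * g := (mul_geom_sum hζ.toInteger a).symm
    have hga : (hζ.toInteger - 1) ∣ g - (a : 𝓞 K) := by
      have h4 : g - (a : 𝓞 K) = ∑ i ∈ range a, (hζ.toInteger ^ i - 1) := by
        simp [hg_def, Finset.sum_sub_distrib]
      rw [h4]
      exact Finset.dvd_sum (fun i _ => by simpa using sub_dvd_pow_sub_pow hζ.toInteger 1 i)
    have h5 : x + hζ.toInteger ^ a * y = (hζ.toInteger - 1) * (t₀ + g * y) := by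
      have h6 : x + hζ.toInteger ^ a * y = (x + y) + (hζ.toInteger ^ a - 1) * y := by ring
      rw [h6, ht₀, hg]; ring
    rw [h5, pow_two]
    apply mul_dvd_mul_left
    have e1 : t₀ + g * y = (t₀ - n₀) + (g - a) * y + a * (y - ny)
        + ((n₀ + a * ny : ℤ) : 𝓞 K) := by push_cast; ring
    rw [e1]
    exact dvd_add (dvd_add (dvd_add hn₀ (Dvd.dvd.mul_right hga _)) (Dvd.dvd.mul_left hny _))
      ((pi_dvd_intCast_iff hζ _).mpr hpa)

end

/-- L7: in a PID, pairwise coprime factors whose product is a unit times an `n`-th power are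
each a unit times an `n`-th power. -/
theorem exists_unit_mul_pow_of_prod_eq {R ι : Type*} [CommRing R] [IsDomain R]
    [IsPrincipalIdealRing R] {s : Finset ι} {f : ι → R} {u : Rˣ} {c : R} {n : ℕ}
    (hcop : ∀ i ∈ s, ∀ j ∈ s, i ≠ j → IsCoprime (f i) (f j))
    (hprod : ∏ i ∈ s, f i = u * c ^ n) :
    ∀ i ∈ s, ∃ (d : R) (v : Rˣ), f i = v * d ^ n := by
  classical
  intro i hi
  have h1 : f i * ∏ j ∈ s.erase i, f j = u * c ^ n := by
    rw [Finset.mul_prod_erase s f hi]; exact hprod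
  have h2 : IsCoprime (f i) (∏ j ∈ s.erase i, f j) :=
    IsCoprime.prod_right (fun j hj =>
      hcop i hi j (Finset.mem_of_mem_erase hj) (Finset.ne_of_mem_erase hj).symm)
  obtain ⟨d, v, hv⟩ := exists_associated_pow_of_associated_pow_mul h2 (c := c) (k := n)
    ⟨u, by rw [h1]; ring⟩
  exact ⟨d, v, by rw [← hv]; ring⟩

end Fermat.Agent.Kummer.CaseIIB
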