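/-
Team KUMMER, Case II-B: Kummer's descent in `𝓞 K`, `K = ℚ(ζ_p)` (owner: helper61).
-/
import Mathlib
import Fermat.Agent.Kummer.Defs
import Fermat.Agent.Kummer.CaseIIB.Lemmas

set_option autoImplicit false

open NumberField Polynomial Finset

namespace Fermat.Agent.Kummer.CaseIIB

section

variable {p : ℕ} [hp : Fact p.Prime] {K : Type*} [Field K] [NumberField K]
  [hK : IsCyclotomicExtension {p} ℚ K] {ζ : K} (hζ : IsPrimitiveRoot ζ p)

/-- If `π = ζ - 1` divides a rational integer `n` then `p ∣ n`. -/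
theorem int_dvd_of_zeta_sub_one_dvd {n : ℤ} (h : (hζ.toInteger - 1) ∣ (n : 𝓞 K)) :
    (p : ℤ) ∣ n :=
  (pi_dvd_intCast_iff hζ n).mp h

/-- A solution of the generalised Fermat equation `x ^ p + y ^ p = ε π ^ (p m) z ^ p` in `𝓞 K`
with `π = ζ - 1`, `π ∤ y z` and `x`, `y` coprime. -/
def Sol (m : ℕ) : Prop :=
  ∃ (x y z : 𝓞 K) (ε : (𝓞 K)ˣ), ¬ (hζ.toInteger - 1) ∣ y ∧ ¬ (hζ.toInteger - 1) ∣ z ∧
    IsCoprime x y ∧ x ^ p + y ^ p = ε * (hζ.toInteger - 1) ^ (p * m) * z ^ p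

/-- Core of the descent, after normalising so that `π ^ 2 ∣ x + y`. -/
theorem descent_core (hp2 : p ≠ 2) [IsPrincipalIdealRing (𝓞 K)] (hKL : KummerLemmaHolds p K)
    {m : ℕ} {x y z : 𝓞 K} {ε : (𝓞 K)ˣ} (hy : ¬ (hζ.toInteger - 1) ∣ y)
    (hz : ¬ (hζ.toInteger - 1) ∣ z) (hxy : IsCoprime x y)
    (H : x ^ p + y ^ p = ε * (hζ.toInteger - 1) ^ (p * (m + 1)) * z ^ p)
    (h2 : (hζ.toInteger - 1) ^ 2 ∣ x + y) : 1 ≤ m ∧ Sol hζ m := by
  classical
  have hω : IsPrimitiveRoot hζ.toInteger p := hζ.toInteger_isPrimitiveRoot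
  have hπ : Prime (hζ.toInteger - 1) := pi_prime hζ
  have hodd : Odd p := hp.out.odd_of_ne_two hp2
  set ω : 𝓞 K := hζ.toInteger with hω_def
  set π : 𝓞 K := ω - 1 with hπ_def
  set S : Finset (𝓞 K) := nthRootsFinset p (1 : 𝓞 K) with hS_def
  have h1mem : (1 : 𝓞 K) ∈ S := by
    rw [hS_def, mem_nthRootsFinset hp.out.pos]; exact one_pow p
  -- the cofactors `T η = (x + η y) / π`
  have hdiv : ∀ η ∈ S, π ∣ x + η * y := by
    intro η hη
    have e : x + η * y = (x + y) + (η - 1) * y := by ring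
    rw [e]
    exact dvd_add (dvd_trans (dvd_pow_self π two_ne_zero) h2)
      (Dvd.dvd.mul_right (hω.sub_one_dvd_sub hp.out hη h1mem) _)
  choose! T hT using hdiv
  -- differences of distinct roots are associated to `π`
  have hassoc : ∀ η ∈ S, ∀ η' ∈ S, η ≠ η' → ∃ u : (𝓞 K)ˣ, π * u = η - η' := by
    intro η hη η' hη' hne
    exact hω.nthRootsFinset_pairwise_associated_sub_one_sub_of_prime hp.out hη hη' hne
  -- `π ∤ T η` for `η ≠ 1`
  have hTndvd : ∀ η ∈ S, η ≠ 1 → ¬ π ∣ T η := by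
    intro η hη hη1 hdvd
    obtain ⟨u, hu⟩ := hassoc η hη 1 h1mem hη1
    have h3 : π ^ 2 ∣ (η - 1) * y := by
      have e : (η - 1) * y = (x + η * y) - (x + y) := by ring
      rw [e, hT η hη]
      exact dvd_sub (by rw [pow_two]; exact mul_dvd_mul_left π hdvd) h2
    rw [← hu, pow_two, mul_assoc] at h3
    have h4 : π ∣ ↑u * y := (mul_dvd_mul_iff_left hπ.ne_zero).mp h3
    exact hy ((hπ.dvd_or_dvd h4).resolve_left
      (fun h => hπ.not_isUnit (isUnit_of_dvd_unit h u.isUnit)))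
  -- pairwise coprimality of the cofactors
  have hcop : ∀ η ∈ S, ∀ η' ∈ S, η ≠ η' → IsCoprime (T η) (T η') := by
    intro η hη η' hη' hne
    obtain ⟨u, hu⟩ := hassoc η hη η' hη' hne
    have e1 : T η - T η' = u * y := by
      apply mul_left_cancel₀ hπ.ne_zero
      rw [mul_sub, ← hT η hη, ← hT η' hη', ← mul_assoc, hu]; ring
    have e2 : η * T η' - η' * T η = u * x := by
      apply mul_left_cancel₀ hπ.ne_zero
      calc π * (η * T η' - η' * T η) = η * (π * T η') - η' * (π * T η) := by ring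
        _ = η * (x + η' * y) - η' * (x + η * y) := by rw [hT η hη, hT η' hη']
        _ = (η - η') * x := by ring
        _ = π * (u * x) := by rw [← hu]; ring
    obtain ⟨a, b, hab⟩ := hxy
    refine ⟨(↑u⁻¹ : 𝓞 K) * (b - a * η'), (↑u⁻¹ : 𝓞 K) * (a * η - b), ?_⟩
    calc (↑u⁻¹ : 𝓞 K) * (b - a * η') * T η + (↑u⁻¹ : 𝓞 K) * (a * η - b) * T η'
        = (↑u⁻¹ : 𝓞 K) * (b * (T η - T η') + a * (η * T η' - η' * T η)) := by ring
      _ = (↑u⁻¹ : 𝓞 K) * u * (a * x + b * y) := by rw [e1, e2]; ring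
      _ = 1 := by rw [hab, Units.inv_mul, one_mul]
  -- the product of the cofactors
  have hprod : ∏ η ∈ S, T η = ε * π ^ (p * m) * z ^ p := by
    have h5 : ∏ η ∈ S, (x + η * y) = x ^ p + y ^ p :=
      (hω.pow_add_pow_eq_prod_add_mul x y hodd).symm
    have h6 : ∏ η ∈ S, (x + η * y) = π ^ p * ∏ η ∈ S, T η := by
      rw [Finset.prod_congr rfl (fun η hη => hT η hη), Finset.prod_mul_distrib,
        Finset.prod_const, hS_def, hω.card_nthRootsFinset]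
    apply mul_left_cancel₀ (pow_ne_zero p hπ.ne_zero)
    rw [← h6, h5, H]; ring
  -- isolate `T 1`
  set S' : Finset (𝓞 K) := S.erase 1 with hS'_def
  have hprod' : T 1 * ∏ η ∈ S', T η = ε * π ^ (p * m) * z ^ p := by
    rw [hS'_def, Finset.mul_prod_erase S T h1mem]; exact hprod
  have hS'ndvd : ¬ π ∣ ∏ η ∈ S', T η := by
    rw [Prime.dvd_finsetProd_iff hπ]
    rintro ⟨η, hη, hdvd⟩
    exact hTndvd η (Finset.mem_of_mem_erase hη) (Finset.ne_of_mem_erase hη) hdvd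
  have hT1 : π ^ (p * m) ∣ T 1 :=
    hπ.pow_dvd_of_dvd_mul_right _ hS'ndvd ⟨ε * z ^ p, by rw [hprod']; ring⟩
  obtain ⟨t₁, ht₁⟩ := hT1
  have hprod'' : t₁ * ∏ η ∈ S', T η = ε * z ^ p := by
    apply mul_left_cancel₀ (pow_ne_zero (p * m) hπ.ne_zero)
    rw [← mul_assoc, ← ht₁, hprod']; ring
  have ht₁ndvd : ¬ π ∣ t₁ := by
    intro hdvd
    have h7 : π ∣ ε * z ^ p := hprod'' ▸ Dvd.dvd.mul_right hdvd _
    rcases hπ.dvd_or_dvd h7 with h | h
    · exact hπ.not_isUnit (isUnit_of_dvd_unit h ε.isUnit)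
    · exact hz (hπ.dvd_of_dvd_pow h)
  -- `m ≥ 1`
  have hm : 1 ≤ m := by
    by_contra hm0
    have hm0 : m = 0 := by omega
    have e : x + y = π * t₁ := by
      have h8 := hT 1 h1mem
      rw [one_mul] at h8
      rw [h8, ht₁, hm0]; simp
    rw [e, pow_two] at h2
    exact ht₁ndvd ((mul_dvd_mul_iff_left hπ.ne_zero).mp h2)
  -- the cofactors are unit multiples of `p`-th powers
  have hpow : ∀ η ∈ S', ∃ d : 𝓞 K, Associated (d ^ p) (T η) := by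
    intro η hη
    have hηS := Finset.mem_of_mem_erase hη
    have h7 : T η * ∏ η' ∈ S.erase η, T η' = ε * π ^ (p * m) * z ^ p := by
      rw [Finset.mul_prod_erase S T hηS]; exact hprod
    have h8 : IsCoprime (T η) (∏ η' ∈ S.erase η, T η') :=
      IsCoprime.prod_right (fun η' hη' =>
        hcop η hηS η' (Finset.mem_of_mem_erase hη') (Finset.ne_of_mem_erase hη').symm)
    exact exists_associated_pow_of_associated_pow_mul h8 (c := π ^ m * z) (k := p)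
      ⟨ε, by rw [h7]; ring⟩
  have hpow1 : ∃ d : 𝓞 K, Associated (d ^ p) t₁ := by
    have h8 : IsCoprime t₁ (∏ η ∈ S', T η) := by
      have h9 : IsCoprime (T 1) (∏ η ∈ S', T η) :=
        IsCoprime.prod_right (fun η' hη' =>
          hcop 1 h1mem η' (Finset.mem_of_mem_erase hη') (Finset.ne_of_mem_erase hη').symm)
      rw [ht₁] at h9
      exact h9.of_mul_left_right
    exact exists_associated_pow_of_associated_pow_mul h8 (c := z) (k := p)
      ⟨ε, by rw [hprod'']; ring⟩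
  -- the three roots `1`, `ω`, `ω⁻¹ = ω ^ (p - 1)`
  have hω1 : ω ≠ 1 := hω.ne_one hp.out.one_lt
  set ω' : 𝓞 K := ω ^ (p - 1) with hω'_def
  have hωω' : ω * ω' = 1 := by
    rw [hω'_def, ← pow_succ', Nat.sub_add_cancel hp.out.one_le, hω.pow_eq_one]
  have hωS : ω ∈ S' :=
    Finset.mem_erase.mpr ⟨hω1, by rw [hS_def, mem_nthRootsFinset hp.out.pos]; exact hω.pow_eq_one⟩
  have hω'1 : ω' ≠ 1 := by
    intro h
    rw [h, mul_one] at hωω'
    exact hω1 hωω'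
  have hω'S : ω' ∈ S' :=
    Finset.mem_erase.mpr ⟨hω'1, by
      rw [hS_def, mem_nthRootsFinset hp.out.pos, hω'_def, ← pow_mul, mul_comm, pow_mul,
        hω.pow_eq_one, one_pow]⟩
  have hωne : ω ≠ ω' := by
    intro h
    have h2' : ω ^ 2 = 1 := by
      rw [pow_two]
      nth_rewrite 2 [h]
      exact hωω'
    have h3 : p ∣ 2 := hω.dvd_of_pow_eq_one 2 h2'
    have h4 := Nat.le_of_dvd two_pos h3
    have h5 := hp.out.two_le
    exact hp2 (by omega)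
  have hrel : T ω + ω * T ω' = (1 + ω) * T 1 := by
    apply mul_left_cancel₀ hπ.ne_zero
    calc π * (T ω + ω * T ω') = π * T ω + ω * (π * T ω') := by ring
      _ = (x + ω * y) + ω * (x + ω' * y) := by
          rw [hT ω (Finset.mem_of_mem_erase hωS), hT ω' (Finset.mem_of_mem_erase hω'S)]
      _ = (1 + ω) * (x + 1 * y) + (ω * ω' - 1) * y := by ring
      _ = (1 + ω) * (π * T 1) := by rw [hωω', sub_self, zero_mul, add_zero, hT 1 h1mem]
      _ = π * ((1 + ω) * T 1) := by ring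
  obtain ⟨d₁, u₁, hd₁⟩ := hpow ω hωS
  obtain ⟨d₂, u₂, hd₂⟩ := hpow ω' hω'S
  obtain ⟨d₀, u₀, hd₀⟩ := hpow1
  obtain ⟨uω, huω⟩ := isUnit_one_add_zeta hζ hp2
  obtain ⟨vω, hvω⟩ := hω.isUnit hp.out.ne_zero
  -- the new equation
  have hE : d₁ ^ p + ((vω * u₂ * u₁⁻¹ : (𝓞 K)ˣ) : 𝓞 K) * d₂ ^ p
      = ((uω * u₀ * u₁⁻¹ : (𝓞 K)ˣ) : 𝓞 K) * π ^ (p * m) * d₀ ^ p := by
    have h7 := hrel
    rw [← hd₁, ← hd₂, ht₁, ← hd₀, ← huω, ← hvω] at h7
    have hu : (↑u₁ : 𝓞 K) * ↑u₁⁻¹ = 1 := Units.mul_inv u₁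
    push_cast
    linear_combination (↑u₁⁻¹ : 𝓞 K) * h7 - d₁ ^ p * hu
  -- Kummer's lemma applies to the unit `vω * u₂ * u₁⁻¹`
  obtain ⟨n₁, r₁, hr₁⟩ := exists_int_pow_sub (p := p) d₁
  obtain ⟨n₂, r₂, hr₂⟩ := exists_int_pow_sub (p := p) d₂
  have hd₂ndvd : ¬ π ∣ d₂ := by
    intro h
    apply hTndvd ω' (Finset.mem_of_mem_erase hω'S) hω'1
    rw [← hd₂]
    exact Dvd.dvd.mul_right (dvd_pow h hp.out.ne_zero) _
  have hpn₂ : ¬ (p : ℤ) ∣ n₂ := by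
    intro h
    have h7 : (p : 𝓞 K) ∣ d₂ ^ p := by
      have h8 : d₂ ^ p = (p : 𝓞 K) * r₂ + (n₂ : 𝓞 K) := by rw [← hr₂]; ring
      rw [h8]
      exact dvd_add (dvd_mul_right _ _) (natCast_dvd_intCast h)
    exact hd₂ndvd (hπ.dvd_of_dvd_pow (dvd_trans (pi_dvd_p hζ) h7))
  obtain ⟨r₃, hr₃⟩ : (p : 𝓞 K) ∣ π ^ (p * m) :=
    (assoc_pi_pow hζ).symm.dvd.trans (pow_dvd_pow π (by
      have h9 : p * 1 ≤ p * m := Nat.mul_le_mul_left p hm
      omega))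
  obtain ⟨c, e, hce⟩ := (Nat.prime_iff_prime_int.mp hp.out).coprime_iff_not_dvd.mpr hpn₂
  have hce' : (c : 𝓞 K) * (p : 𝓞 K) + (e : 𝓞 K) * (n₂ : 𝓞 K) = 1 := by
    have := congrArg (Int.cast : ℤ → 𝓞 K) hce
    push_cast at this
    exact this
  have hv : ∃ n : ℤ, (p : 𝓞 K) ∣ ((vω * u₂ * u₁⁻¹ : (𝓞 K)ˣ) : 𝓞 K) - (n : 𝓞 K) := by
    refine ⟨-(n₁ * e), ((vω * u₂ * u₁⁻¹ : (𝓞 K)ˣ) : 𝓞 K) * c
      + e * (((uω * u₀ * u₁⁻¹ : (𝓞 K)ˣ) : 𝓞 K) * r₃ * d₀ ^ p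
        - ((vω * u₂ * u₁⁻¹ : (𝓞 K)ˣ) : 𝓞 K) * r₂ - r₁), ?_⟩
    rw [hr₃] at hE
    push_cast at hE ⊢
    linear_combination (↑vω * ↑u₂ * ↑u₁⁻¹ : 𝓞 K) * (-1 : 𝓞 K) * hce' + (e : 𝓞 K) * hE
      - (e : 𝓞 K) * hr₁ - (e : 𝓞 K) * (↑vω * ↑u₂ * ↑u₁⁻¹ : 𝓞 K) * hr₂
  obtain ⟨w, hw⟩ := hKL _ hv
  -- the new solution
  refine ⟨hm, d₁, w * d₂, d₀, uω * u₀ * u₁⁻¹, ?_, ?_, ?_, ?_⟩
  · intro h
    exact hd₂ndvd ((hπ.dvd_or_dvd h).resolve_left
      (fun h' => hπ.not_isUnit (isUnit_of_dvd_unit h' w.isUnit)))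
  · intro h
    apply ht₁ndvd
    rw [← hd₀]
    exact Dvd.dvd.mul_right (dvd_pow h hp.out.ne_zero) _
  · have h9 : IsCoprime (T ω) (T ω') :=
      hcop ω (Finset.mem_of_mem_erase hωS) ω' (Finset.mem_of_mem_erase hω'S) hωne
    rw [← hd₁, ← hd₂] at h9
    have h10 : IsCoprime (d₁ ^ p) (d₂ ^ p) := h9.of_mul_left_left.of_mul_right_left
    have h11 : IsCoprime d₁ d₂ := (IsCoprime.pow_iff hp.out.pos hp.out.pos).mp h10
    exact (isCoprime_mul_unit_left_right w.isUnit d₁ d₂).mpr h11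
  · rw [mul_pow, ← Units.val_pow_eq_pow_val, ← hw]
    exact hE

/-- One step of Kummer's descent. -/
theorem descent_step (hp2 : p ≠ 2) [IsPrincipalIdealRing (𝓞 K)] (hKL : KummerLemmaHolds p K)
    {m : ℕ} (h : Sol hζ (m + 1)) : 1 ≤ m ∧ Sol hζ m := by
  obtain ⟨x, y, z, ε, hy, hz, hxy, H⟩ := h
  have hπ : Prime (hζ.toInteger - 1) := pi_prime hζ
  -- `π ∣ x + y`
  have h1 : (hζ.toInteger - 1) ∣ x + y := by
    obtain ⟨r, hr⟩ := exists_add_pow_prime_eq hp.out x y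
    have h3 : (hζ.toInteger - 1) ∣ (x + y) ^ p := by
      rw [hr, H]
      refine dvd_add (Dvd.dvd.mul_right (Dvd.dvd.mul_left
        (dvd_pow_self _ (Nat.mul_ne_zero hp.out.ne_zero (Nat.succ_ne_zero m))) _) _) ?_
      exact Dvd.dvd.mul_right (Dvd.dvd.mul_right (Dvd.dvd.mul_right (pi_dvd_p hζ) _) _) _
    exact hπ.dvd_of_dvd_pow h3
  obtain ⟨η₀, hη₀, h2⟩ := exists_root_sq_dvd hζ h1 hy
  have hη₀p : η₀ ^ p = 1 := (mem_nthRootsFinset hp.out.pos 1).mp hη₀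
  have hη₀u : IsUnit η₀ := IsUnit.of_pow_eq_one hη₀p hp.out.ne_zero
  refine descent_core hζ hp2 hKL (x := x) (y := η₀ * y) (z := z) (ε := ε) ?_ hz ?_ ?_ h2
  · intro h
    exact hy ((hπ.dvd_or_dvd h).resolve_left
      (fun h' => hπ.not_isUnit (isUnit_of_dvd_unit h' hη₀u)))
  · exact (isCoprime_mul_unit_left_right hη₀u x y).mpr hxy
  · rw [mul_pow, hη₀p, one_mul]
    exact H

/-- Kummer's descent: the generalised Fermat equation has no solution with `m ≥ 1`. -/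
theorem not_sol (hp2 : p ≠ 2) [IsPrincipalIdealRing (𝓞 K)] (hKL : KummerLemmaHolds p K)
    (hζ : IsPrimitiveRoot ζ p) (m : ℕ) : ¬ Sol hζ (m + 1) := by
  induction m with
  | zero =>
    intro h
    have := (descent_step hζ hp2 hKL h).1
    omega
  | succ m ih =>
    intro h
    exact ih (descent_step hζ hp2 hKL h).2

end

end Fermat.Agent.Kummer.CaseIIB

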