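/-
Team KUMMER, sub-team II-B. Owner of this file: helper72.
Integer wrapper for Kummer's second case: from a coprime integer solution of
`a ^ p + b ^ p = c ^ p` with `p ∣ c` we build a solution of the generalised equation in `𝓞 K`
and apply the descent (`CaseIIB.not_sol`).
-/
import Mathlib
import Fermat.Agent.Kummer.Defs
import Fermat.Agent.Kummer.CaseIIB.Descent

set_option autoImplicit false

open NumberField

namespace Fermat.Agent.Kummer

/-- **Second case of FLT** for a prime `p ≥ 5` such that `𝓞 ℚ(ζ_p)` is a PID and Kummer's lemma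
holds: there is no coprime integer solution of `a ^ p + b ^ p = c ^ p` with `c ≠ 0`, `p ∣ c`. -/
theorem caseII_B {p : ℕ} [Fact p.Prime] (hp5 : 5 ≤ p) (K : Type*) [Field K] [NumberField K]
    [IsCyclotomicExtension {p} ℚ K] [IsPrincipalIdealRing (𝓞 K)] (hKL : KummerLemmaHolds p K)
    {a b c : ℤ} (hab : IsCoprime a b) (hc : c ≠ 0) (hpc : (p : ℤ) ∣ c)
    (h : a ^ p + b ^ p = c ^ p) : False := by
  have hp : p.Prime := Fact.out
  have hp2 : p ≠ 2 := by omega
  have hpZ : Prime (p : ℤ) := Nat.prime_iff_prime_int.mp hp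
  have hζ : IsPrimitiveRoot (IsCyclotomicExtension.zeta p ℚ K) p :=
    IsCyclotomicExtension.zeta_spec p ℚ K
  -- write `c = p ^ k * c'` with `p ∤ c'`
  have hfin : FiniteMultiplicity (p : ℤ) c :=
    Int.finiteMultiplicity_iff.mpr ⟨by simpa using hp.ne_one, hc⟩
  obtain ⟨c', hcc', hc'⟩ := hfin.exists_eq_pow_mul_and_not_dvd
  set k := multiplicity (p : ℤ) c with hk_def
  have hk : 1 ≤ k := by
    rcases Nat.eq_zero_or_pos k with hk0 | hk0
    · rw [hk0, pow_zero, one_mul] at hcc'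
      exact absurd (hcc' ▸ hpc) hc'
    · exact hk0
  -- `p ∤ b`
  have hb : ¬ (p : ℤ) ∣ b := by
    intro hpb
    have hpa : (p : ℤ) ∣ a := by
      have h1 : (p : ℤ) ∣ a ^ p := by
        have h2 : a ^ p = c ^ p - b ^ p := by rw [← h]; ring
        rw [h2]
        exact dvd_sub (dvd_pow hpc hp.ne_zero) (dvd_pow hpb hp.ne_zero)
      exact hpZ.dvd_of_dvd_pow h1
    exact hpZ.not_isUnit (hab.isUnit_of_dvd' hpa hpb)
  -- `p = u * π ^ (p - 1)`
  obtain ⟨u, hu⟩ := IsCyclotomicExtension.Rat.associated_zeta_sub_one_pow_prime p hζ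
  have hm : (p - 1) * k - 1 + 1 = (p - 1) * k := by
    have : 1 ≤ (p - 1) * k := Nat.one_le_iff_ne_zero.mpr
      (Nat.mul_ne_zero (by omega) (by omega))
    omega
  refine CaseIIB.not_sol hp2 hKL hζ ((p - 1) * k - 1)
    ⟨(a : 𝓞 K), (b : 𝓞 K), (c' : 𝓞 K), u ^ (k * p), ?_, ?_, hab.intCast, ?_⟩
  · rwa [IsCyclotomicExtension.Rat.zeta_sub_one_dvd_intCast_iff' p hζ]
  · rwa [IsCyclotomicExtension.Rat.zeta_sub_one_dvd_intCast_iff' p hζ]
  · rw [hm]
    have h1 : ((a : 𝓞 K)) ^ p + (b : 𝓞 K) ^ p = (c : 𝓞 K) ^ p := by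
      exact_mod_cast congrArg (Int.cast : ℤ → 𝓞 K) h
    rw [h1, hcc']
    push_cast
    rw [← hu]
    ring
end Fermat.Agent.Kummer
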